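import Fermat.Agent.Gateway.GoodRed.GaussBar

/-!
# P-GATEWAY (c1): `FBar L N = modularFunctionFieldFullC L N`

For a field `L` of characteristic zero the base change
`FBar L N = laurentBaseChange L (modularFunctionFieldFull N)` of the rational level-`N` function
field is the level-`N` function field `modularFunctionFieldFullC L N` over `L`, as subfields of
`L((q))`. This identifies the `L`-side objects of `GaussBar` (`FBar`, `OvVal`, `resFk`) with the
char-free objects of `ConjFamily` (`Fk L N`, `Emb L N`).
-/

set_option autoImplicit false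

noncomputable section

namespace Fermat.Agent.Gateway.GoodRed

open ModularCurve IntermediateField Fermat.Agent.S28 Fermat.Agent.S28.Tower

theorem coeffEmb_qExpand_jq (L : Type*) [Field L] [Algebra ℚ L] (d : ℕ) [NeZero d] :
    coeffEmb L (qExpand ℚ d jq) = qExpand L d (jqModC L) := by
  rw [← jS_rat_eq_qExpand, coeffEmb, coeffMap_jS, map_one, jS_eq_qExpand]

theorem coeffEmb_mem_fullC (L : Type*) [Field L] [Algebra ℚ L] (N : ℕ) [NeZero N]
    {x : LaurentSeries ℚ} (hx : x ∈ modularFunctionFieldFull N) :
    coeffEmb L x ∈ modularFunctionFieldFullC L N := by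
  unfold modularFunctionFieldFull at hx
  induction hx using IntermediateField.adjoin_induction with
  | mem x hx =>
    obtain ⟨d, hd0, hd, rfl⟩ := hx
    rw [coeffEmb_qExpand_jq]
    exact jqModCd_mem_full L N hd
  | algebraMap c =>
    rw [algebraMap_laurentSeries_eq_single, coeffEmb, coeffMap_single,
      ← algebraMap_laurentSeries_eq_single]
    exact (modularFunctionFieldFullC L N).algebraMap_mem _
  | add x y _ _ hx hy => rw [map_add]; exact add_mem hx hy
  | inv x _ hx => rw [map_inv₀]; exact inv_mem hx
  | mul x y _ _ hx hy => rw [map_mul]; exact mul_mem hx hy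

/-- **`FBar L N` is the level-`N` function field over `L`.** -/
theorem FBar_eq_fullC (L : Type*) [Field L] [Algebra ℚ L] (N : ℕ) [NeZero N] :
    FBar L N = modularFunctionFieldFullC L N := by
  apply le_antisymm
  · rw [FBar, laurentBaseChange, IntermediateField.adjoin_le_iff]
    rintro _ ⟨x, hx, rfl⟩
    exact coeffEmb_mem_fullC L N hx
  · rw [modularFunctionFieldFullC, IntermediateField.adjoin_le_iff]
    rintro _ ⟨d, hd0, hd, rfl⟩
    rw [← jS_eq_qExpand]
    exact jS_mem_FBar (NeZero.ne d) hd

theorem mem_FBar_iff_mem_fullC {L : Type*} [Field L] [Algebra ℚ L] {N : ℕ} [NeZero N]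
    {f : LaurentSeries L} : f ∈ FBar L N ↔ f ∈ modularFunctionFieldFullC L N := by
  rw [FBar_eq_fullC]

/-- the identity `FBar L N ≃ₐ[L] modularFunctionFieldFullC L N`. -/
def fbarEquivFullC (L : Type*) [Field L] [Algebra ℚ L] (N : ℕ) [NeZero N] :
    FBar L N ≃ₐ[L] modularFunctionFieldFullC L N :=
  IntermediateField.equivOfEq (FBar_eq_fullC L N)

@[simp] theorem coe_fbarEquivFullC {L : Type*} [Field L] [Algebra ℚ L] {N : ℕ} [NeZero N]
    (f : FBar L N) :
    ((fbarEquivFullC L N f : modularFunctionFieldFullC L N) : LaurentSeries L) = f := by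
  rw [fbarEquivFullC, IntermediateField.equivOfEq_apply]

@[simp] theorem coe_fbarEquivFullC_symm {L : Type*} [Field L] [Algebra ℚ L] {N : ℕ} [NeZero N]
    (f : modularFunctionFieldFullC L N) :
    (((fbarEquivFullC L N).symm f : FBar L N) : LaurentSeries L) = f := by
  rw [fbarEquivFullC, IntermediateField.equivOfEq_symm, IntermediateField.equivOfEq_apply]

end Fermat.Agent.Gateway.GoodRed
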