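import Fermat.Agent.S28.Tower.Induction
import Fermat.Agent.S24.CombIndex

/-!
# WP-GR11b: the box of tower monomials has `ψ(N)` elements
-/

set_option autoImplicit false

namespace Fermat.Agent.Gateway.GoodRed.ConjFamily

open Fermat.Agent.S28.Tower ModularCurve

theorem card_Iic_add_single {f : ℕ →₀ ℕ} {x c : ℕ} (hx : f x = 0) :
    (Finset.Iic (f + Finsupp.single x c)).card = (c + 1) * (Finset.Iic f).card := by
  classical
  rw [Finsupp.card_Iic, Finsupp.card_Iic]
  by_cases hc : c = 0
  · subst hc
    simp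
  have hxs : x ∉ f.support := by
    rw [Finsupp.mem_support_iff, not_not]; exact hx
  have hsupp : (f + Finsupp.single x c).support = insert x f.support := by
    ext i
    simp only [Finsupp.mem_support_iff, Finsupp.add_apply, Finset.mem_insert]
    by_cases hi : i = x
    · subst hi
      simp [hx, hc]
    · rw [Finsupp.single_eq_of_ne hi]
      simp [hi]
  have hprod : ∏ i ∈ f.support, (Finset.Iic ((f + Finsupp.single x c) i)).card
      = ∏ i ∈ f.support, (Finset.Iic (f i)).card := by
    refine Finset.prod_congr rfl fun i hi => ?_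
    have hix : i ≠ x := fun h => hxs (h ▸ hi)
    rw [Finsupp.add_apply, Finsupp.single_eq_of_ne hix, add_zero]
  rw [hsupp, Finset.prod_insert (M := ℕ) hxs, hprod, Finsupp.add_apply, hx, zero_add,
    Finsupp.single_eq_same, Nat.card_Iic]

theorem bound_mul_prime_of_not_dvd {N p : ℕ} (hN : N ≠ 0) (hp : p.Prime) (hpN : ¬ p ∣ N) :
    bound (N * p) = bound N + Finsupp.single p p := by
  have h := bound_pow_mul (a := 1) hp hpN one_pos hN
  rw [pow_one, mul_comm] at h
  rw [h]
  congr 1
  have h1 : stepBound p 1 = stepBound p 0 + Finsupp.single (p ^ (0 + 1))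
      (if 0 + 1 = 1 then p else p - 1) := stepBound_succ p 0
  rw [h1, stepBound_zero, zero_add]
  simp

theorem bound_mul_prime_of_dvd {N p : ℕ} (hN : N ≠ 0) (hp : p.Prime) (hpN : p ∣ N) :
    ∃ a : ℕ, bound N (p ^ (a + 1)) = 0 ∧
      bound (N * p) = bound N + Finsupp.single (p ^ (a + 1)) (p - 1) := by
  obtain ⟨a, M, hpM, hNM⟩ := Nat.exists_eq_pow_mul_and_not_dvd hN p hp.ne_one
  have ha : 0 < a := by
    rcases Nat.eq_zero_or_pos a with h | h
    · exfalso
      rw [h, pow_zero, one_mul] at hNM
      exact hpM (hNM ▸ hpN)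
    · exact h
  have hM : M ≠ 0 := by
    rintro rfl
    exact hN (by rw [hNM, mul_zero])
  refine ⟨a, ?_, ?_⟩
  · rw [hNM, bound_pow_mul hp hpM ha hM, Finsupp.add_apply,
      bound_apply_pow_of_not_dvd hp hpM (Nat.succ_pos a),
      stepBound_apply_pow_of_lt hp (Nat.lt_succ_self a)]
  · have h1 : N * p = p ^ (a + 1) * M := by rw [hNM, pow_succ]; ring
    rw [h1, bound_pow_mul hp hpM (Nat.succ_pos a) hM, hNM, bound_pow_mul hp hpM ha hM,
      stepBound_succ, add_assoc]
    congr 2
    have : ¬ (a + 1 = 1) := by omega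
    rw [if_neg this]

/-- **WP-GR11b**: the box has `ψ(N)` elements. -/
theorem card_box {N : ℕ} (hN : N ≠ 0) : (box N).card = dedekindPsi N := by
  induction N using Nat.strong_induction_on with
  | _ N ih =>
    by_cases h1 : N = 1
    · subst h1
      rw [box, bound_one, dedekindPsi_one, Finsupp.card_Iic, Finsupp.support_zero,
        Finset.prod_empty]
    · have hp : N.minFac.Prime := Nat.minFac_prime h1
      set p := N.minFac with hpdef
      obtain ⟨M, hM⟩ : p ∣ N := Nat.minFac_dvd N
      have hM0 : M ≠ 0 := by rintro rfl; exact hN (by simpa using hM)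
      have hMlt : M < N := by
        rw [hM]
        exact lt_mul_of_one_lt_left (Nat.pos_of_ne_zero hM0) hp.one_lt
      have ihM := ih M hMlt hM0
      have hNM : N = M * p := by rw [hM, mul_comm]
      rw [hNM]
      by_cases hpM : p ∣ M
      · obtain ⟨a, ha0, hb⟩ := bound_mul_prime_of_dvd hM0 hp hpM
        rw [Fermat.Agent.S24.Comb.dedekindPsi_mul_prime_of_dvd hM0 hp hpM, box, hb,
          card_Iic_add_single ha0, ← ihM, box, Nat.sub_add_cancel hp.one_le]
      · have hb := bound_mul_prime_of_not_dvd hM0 hp hpM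
        have hbp : bound M p = 0 := by
          have := bound_apply_pow_of_not_dvd hp hpM (i := 1) one_pos
          rwa [pow_one] at this
        rw [Fermat.Agent.S24.Comb.dedekindPsi_mul_prime_of_not_dvd hM0 hp hpM, box, hb,
          card_Iic_add_single hbp, ← ihM, box]

end Fermat.Agent.Gateway.GoodRed.ConjFamily
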