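import Fermat.Agent.Gateway.GoodRed.ConjFamily.Values
import Fermat.Agent.Gateway.GoodRed.ConjFamily.BoxCard

/-!
# P-GATEWAY (c1) WP-GR11 (ConjFamily), part 6: the degree `[Fk : k(j)] = ψ(N)` in the variable `q`

`k⟮jFk k N⟯ : IntermediateField k (Fk k N)` is `k(j)` inside the level-`N` function field.
Transport of `finrank`, finiteness and separability from `(E₀ k N, Fz k N)` along
`θ = qExpand N : Fk ≃ Fz`.
-/

set_option autoImplicit false

noncomputable section

namespace Fermat.Agent.Gateway.GoodRed.ConjFamily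

open Polynomial ModularCurve IntermediateField Fermat.Agent.S28 Fermat.Agent.S28.Tower
open Fermat.Agent.Gateway.GoodRed

section Degree

variable (k : Type) [Field k] (N : ℕ) [NeZero N]

/-- the `k`-algebra embedding `Fk → k((z))`, `f(q) ↦ f(z^N)`. -/
def ψN : Fk k N →ₐ[k] LaurentSeries k := (qExpandAlgHomC k N).comp (Fk k N).val

theorem ψN_apply (x : Fk k N) : ψN k N x = qExpand k N (x : LaurentSeries k) := rfl

theorem map_adjoin_jFk : (k⟮jFk k N⟯).map (ψN k N) = E₀ k N := by
  rw [IntermediateField.adjoin_map, Set.image_singleton, ψN_apply]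
  show IntermediateField.adjoin k {qExpand k N (jqModC k)} = _
  rw [← jS_eq_qExpand]

/-- `k(j(q)) ≃ k(j(z^N))`. -/
def baseEquiv : k⟮jFk k N⟯ ≃+* E₀ k N :=
  ((k⟮jFk k N⟯).equivMap (ψN k N)).toRingEquiv.trans
    (IntermediateField.equivOfEq (map_adjoin_jFk k N)).toRingEquiv

theorem coe_baseEquiv (x : k⟮jFk k N⟯) :
    ((baseEquiv k N x : E₀ k N) : LaurentSeries k) = qExpand k N ((x : Fk k N) : LaurentSeries k) :=
  rfl

theorem baseEquiv_compat :
    (algebraMap (E₀ k N) (Fz k N)).comp (baseEquiv k N).toRingHom =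
      (θ k N).toRingHom.comp (algebraMap k⟮jFk k N⟯ (Fk k N)) := by
  refine RingHom.ext fun x => ?_
  apply Subtype.ext
  rfl

variable {k N}
variable [IsAlgClosed k]

/-- **(CF1), degree**: `[Fk : k(j)] = card (box N)`. -/
theorem finrank_Fk (hNk : (N : k) ≠ 0) :
    Module.finrank k⟮jFk k N⟯ (Fk k N) = (box N).card := by
  rw [Algebra.finrank_eq_of_equiv_equiv (baseEquiv k N) (θ k N) (baseEquiv_compat k N)]
  exact (card_algHom_Fz hNk).2.1

theorem finrank_Fk_eq_dedekindPsi (hNk : (N : k) ≠ 0) :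
    Module.finrank k⟮jFk k N⟯ (Fk k N) = dedekindPsi N := by
  rw [finrank_Fk hNk, card_box (NeZero.ne N)]

theorem finiteDimensional_Fk (hNk : (N : k) ≠ 0) : FiniteDimensional k⟮jFk k N⟯ (Fk k N) := by
  haveI := (card_algHom_Fz hNk).2.2.1
  exact Module.Finite.of_equiv_equiv (baseEquiv k N).symm (θ k N).symm (by
    refine RingHom.ext fun x => ?_
    have h := DFunLike.congr_fun (baseEquiv_compat k N) ((baseEquiv k N).symm x)
    simp only [RingHom.comp_apply, RingEquiv.toRingHom_eq_coe, RingHom.coe_coe,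
      RingEquiv.apply_symm_apply] at h ⊢
    rw [h, RingEquiv.symm_apply_apply])

theorem isSeparable_Fk (hNk : (N : k) ≠ 0) : Algebra.IsSeparable k⟮jFk k N⟯ (Fk k N) := by
  haveI := (card_algHom_Fz hNk).2.2.2
  exact Algebra.IsSeparable.of_equiv_equiv (baseEquiv k N).symm (θ k N).symm (by
    refine RingHom.ext fun x => ?_
    have h := DFunLike.congr_fun (baseEquiv_compat k N) ((baseEquiv k N).symm x)
    simp only [RingHom.comp_apply, RingEquiv.toRingHom_eq_coe, RingHom.coe_coe,
      RingEquiv.apply_symm_apply] at h ⊢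
    rw [h, RingEquiv.symm_apply_apply])

/-- **(CF1)**: the number of cusp embeddings is the degree `[Fk : k(j)]`. -/
theorem card_emb_eq_finrank (hNk : (N : k) ≠ 0) :
    Nat.card (Emb k N) = Module.finrank k⟮jFk k N⟯ (Fk k N) := by
  rw [card_emb hNk, finrank_Fk hNk]

theorem card_emb_eq_dedekindPsi (hNk : (N : k) ≠ 0) : Nat.card (Emb k N) = dedekindPsi N := by
  rw [card_emb hNk, card_box (NeZero.ne N)]

end Degree

end Fermat.Agent.Gateway.GoodRed.ConjFamily
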