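import Fermat.Agent.S28.Tower.Defs
import Fermat.Agent.S28.Laurent

/-!
# WP-GR11c (CF4): differences of the conjugate series `j(ξ u^c)` are units

For a commutative domain `R`, `ξ ξ' : Rˣ`, `c c' ≠ 0`:
* (U1) order and lowest coefficient of `jS R ξ c - jS R ξ' c'`;
* (U2) `1 - ζ` is a unit when `ζ ≠ 1`, `ζ ^ N = 1` and `N` is a unit;
* (U3) `jS A ξ c - jS A ξ' c'` is a unit of `A((u))` when `(ξ, c) ≠ (ξ', c')`, `ξ^N = ξ'^N = 1`
  and `N` is a unit of `A`.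
-/

set_option autoImplicit false
set_option linter.unusedSectionVars false

noncomputable section

namespace Fermat.Agent.Gateway.GoodRed.ConjFamily

open Fermat.Agent.S28.Tower ModularCurve

section Generic

variable {R : Type*} [CommRing R]

/-- order and lowest coefficient from the lowest nonzero coefficient. -/
theorem order_eq_of_coeff {f : LaurentSeries R} {n : ℤ} (hn : f.coeff n ≠ 0)
    (hlt : ∀ m < n, f.coeff m = 0) : f.order = n ∧ f.leadingCoeff = f.coeff n := by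
  have hf : f ≠ 0 := by
    rintro rfl
    exact hn (HahnSeries.coeff_zero)
  have hle : f.order ≤ n := HahnSeries.order_le_of_coeff_ne_zero hn
  have hord : f.order = n := by
    rcases lt_or_eq_of_le hle with h | h
    · exfalso
      have h1 : f.leadingCoeff ≠ 0 := HahnSeries.leadingCoeff_ne_zero.mpr hf
      rw [HahnSeries.leadingCoeff_eq] at h1
      exact h1 (hlt _ h)
    · exact h
  exact ⟨hord, by rw [HahnSeries.leadingCoeff_eq, hord]⟩

end Generic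

section U1

variable {R : Type*} [CommRing R] [Nontrivial R]

/-- (U1), `c < c'`. -/
theorem order_jS_sub_of_lt {c c' : ℕ} (hc : c ≠ 0) (hcc : c < c') (ξ ξ' : Rˣ) :
    (jS R ξ c - jS R ξ' c').order = -(c' : ℤ) ∧
      (jS R ξ c - jS R ξ' c').leadingCoeff = -((ξ'⁻¹ : Rˣ) : R) := by
  have hc' : c' ≠ 0 := by omega
  have h1 : (jS R ξ c - jS R ξ' c').coeff (-(c' : ℤ)) = -((ξ'⁻¹ : Rˣ) : R) := by
    rw [HahnSeries.coeff_sub, coeff_jS_neg hc' ξ',
      coeff_jS_of_lt hc ξ (by exact_mod_cast (by omega : -(c' : ℤ) < -(c : ℤ))), zero_sub]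
  have h2 := order_eq_of_coeff (f := jS R ξ c - jS R ξ' c') (n := -(c' : ℤ))
    (by rw [h1]; exact neg_ne_zero.mpr (Units.ne_zero _))
    (fun m hm => by
      rw [HahnSeries.coeff_sub, coeff_jS_of_lt hc' ξ' hm,
        coeff_jS_of_lt hc ξ (lt_trans hm (by exact_mod_cast (by omega : -(c' : ℤ) < -(c : ℤ)))),
        sub_zero])
  exact ⟨h2.1, by rw [h2.2, h1]⟩

/-- (U1), `c' < c`. -/
theorem order_jS_sub_of_gt {c c' : ℕ} (hc' : c' ≠ 0) (hcc : c' < c) (ξ ξ' : Rˣ) :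
    (jS R ξ c - jS R ξ' c').order = -(c : ℤ) ∧
      (jS R ξ c - jS R ξ' c').leadingCoeff = ((ξ⁻¹ : Rˣ) : R) := by
  have hc : c ≠ 0 := by omega
  have h1 : (jS R ξ c - jS R ξ' c').coeff (-(c : ℤ)) = ((ξ⁻¹ : Rˣ) : R) := by
    rw [HahnSeries.coeff_sub, coeff_jS_neg hc ξ,
      coeff_jS_of_lt hc' ξ' (by exact_mod_cast (by omega : -(c : ℤ) < -(c' : ℤ))), sub_zero]
  have h2 := order_eq_of_coeff (f := jS R ξ c - jS R ξ' c') (n := -(c : ℤ))
    (by rw [h1]; exact Units.ne_zero _)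
    (fun m hm => by
      rw [HahnSeries.coeff_sub, coeff_jS_of_lt hc ξ hm,
        coeff_jS_of_lt hc' ξ' (lt_trans hm (by exact_mod_cast (by omega : -(c : ℤ) < -(c' : ℤ)))),
        sub_zero])
  exact ⟨h2.1, by rw [h2.2, h1]⟩

/-- (U1), `c = c'`, `ξ ≠ ξ'`. -/
theorem order_jS_sub_of_eq {c : ℕ} (hc : c ≠ 0) {ξ ξ' : Rˣ} (h : ξ ≠ ξ') :
    (jS R ξ c - jS R ξ' c).order = -(c : ℤ) ∧
      (jS R ξ c - jS R ξ' c).leadingCoeff = ((ξ⁻¹ : Rˣ) : R) - ((ξ'⁻¹ : Rˣ) : R) := by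
  have h1 : (jS R ξ c - jS R ξ' c).coeff (-(c : ℤ)) = ((ξ⁻¹ : Rˣ) : R) - ((ξ'⁻¹ : Rˣ) : R) := by
    rw [HahnSeries.coeff_sub, coeff_jS_neg hc ξ, coeff_jS_neg hc ξ']
  have hne : ((ξ⁻¹ : Rˣ) : R) - ((ξ'⁻¹ : Rˣ) : R) ≠ 0 := by
    intro h0
    exact h (inv_injective (Units.ext (sub_eq_zero.mp h0)))
  have h2 := order_eq_of_coeff (f := jS R ξ c - jS R ξ' c) (n := -(c : ℤ))
    (by rw [h1]; exact hne)
    (fun m hm => by
      rw [HahnSeries.coeff_sub, coeff_jS_of_lt hc ξ hm, coeff_jS_of_lt hc ξ' hm, sub_zero])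
  exact ⟨h2.1, by rw [h2.2, h1]⟩

end U1

section U2

variable {A : Type*} [CommRing A] [IsDomain A]

/-- (U2): `1 - ζ` is a unit for a nontrivial `N`-th root of unity `ζ` when `N` is a unit. -/
theorem isUnit_one_sub_of_pow_eq_one {N : ℕ} (hN : IsUnit ((N : ℕ) : A)) (ζ : Aˣ)
    (hζ : ζ ^ N = 1) (hζ1 : ζ ≠ 1) : IsUnit (1 - (ζ : A)) := by
  have hN0 : N ≠ 0 := by
    rintro rfl
    rw [Nat.cast_zero] at hN
    exact not_isUnit_zero hN
  have hdvd : orderOf ζ ∣ N := orderOf_dvd_of_pow_eq_one hζ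
  have hm0 : orderOf ζ ≠ 0 := fun h => hN0 (by rw [h, zero_dvd_iff] at hdvd; exact hdvd)
  have hm1 : orderOf ζ ≠ 1 := fun h => hζ1 (orderOf_eq_one_iff.mp h)
  obtain ⟨n, hn⟩ : ∃ n, orderOf ζ = n + 1 := ⟨orderOf ζ - 1, by omega⟩
  have hn1 : 1 ≤ n := by omega
  have hprim : IsPrimitiveRoot (ζ : A) (n + 1) := by
    rw [← hn]
    exact IsPrimitiveRoot.coe_units_iff.mpr (IsPrimitiveRoot.orderOf ζ)
  have hprod := hprim.prod_one_sub_pow_eq_order
  have hdiv1 : (1 - (ζ : A)) ∣ ((n + 1 : ℕ) : A) := by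
    have : (1 - (ζ : A)) ∣ ∏ k ∈ Finset.range n, (1 - (ζ : A) ^ (k + 1)) := by
      have h0 : (0 : ℕ) ∈ Finset.range n := Finset.mem_range.mpr (by omega)
      have := Finset.dvd_prod_of_mem (fun k => 1 - (ζ : A) ^ (k + 1)) h0
      simpa using this
    rw [hprod] at this
    exact_mod_cast this
  have hdiv2 : ((n + 1 : ℕ) : A) ∣ ((N : ℕ) : A) := by
    rw [← hn]
    exact Nat.cast_dvd_cast hdvd
  exact isUnit_of_dvd_unit (dvd_trans hdiv1 hdiv2) hN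

end U2

section U3

variable {A : Type*} [CommRing A] [IsDomain A]

/-- (U3): the lowest coefficient of a difference of two distinct conjugate series is a unit. -/
theorem isUnit_leadingCoeff_jS_sub {N : ℕ} (hN : IsUnit ((N : ℕ) : A)) {ξ ξ' : Aˣ}
    (hξ : ξ ^ N = 1) (hξ' : ξ' ^ N = 1) {c c' : ℕ} (hc : c ≠ 0) (hc' : c' ≠ 0)
    (hne : ξ ≠ ξ' ∨ c ≠ c') : IsUnit (jS A ξ c - jS A ξ' c').leadingCoeff := by
  rcases lt_trichotomy c c' with hlt | heq | hgt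
  · rw [(order_jS_sub_of_lt hc hlt ξ ξ').2]
    exact (Units.isUnit _).neg
  · subst heq
    have hξξ' : ξ ≠ ξ' := by
      rcases hne with h | h
      · exact h
      · exact absurd rfl h
    rw [(order_jS_sub_of_eq hc hξξ').2]
    have hζN : (ξ' * ξ⁻¹) ^ N = 1 := by rw [mul_pow, inv_pow, hξ, hξ', inv_one, mul_one]
    have hζ1 : ξ' * ξ⁻¹ ≠ 1 := by
      intro h
      exact hξξ' (mul_inv_eq_one.mp h).symm
    have hu := isUnit_one_sub_of_pow_eq_one hN (ξ' * ξ⁻¹) hζN hζ1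
    have : ((ξ⁻¹ : Aˣ) : A) - ((ξ'⁻¹ : Aˣ) : A)
        = ((ξ'⁻¹ : Aˣ) : A) * -(1 - ((ξ' * ξ⁻¹ : Aˣ) : A)) := by
      rw [Units.val_mul]
      have h1 : ((ξ'⁻¹ : Aˣ) : A) * (ξ' : A) = 1 := by
        rw [← Units.val_mul, inv_mul_cancel, Units.val_one]
      linear_combination (-((ξ⁻¹ : Aˣ) : A)) * h1
    rw [this]
    exact (Units.isUnit _).mul hu.neg
  · rw [(order_jS_sub_of_gt hc' hgt ξ ξ').2]
    exact Units.isUnit _

/-- (U3): a difference of two distinct conjugate series is a unit of `A((u))`. -/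
theorem isUnit_jS_sub {N : ℕ} (hN : IsUnit ((N : ℕ) : A)) {ξ ξ' : Aˣ}
    (hξ : ξ ^ N = 1) (hξ' : ξ' ^ N = 1) {c c' : ℕ} (hc : c ≠ 0) (hc' : c' ≠ 0)
    (hne : ξ ≠ ξ' ∨ c ≠ c') : IsUnit (jS A ξ c - jS A ξ' c') :=
  HahnSeries.isUnit_iff.mpr (isUnit_leadingCoeff_jS_sub hN hξ hξ' hc hc' hne)

end U3

section Conjugates

variable {R : Type*} [CommRing R]

/-- the `S28` substitution vocabulary: `subst ξ c j = jS R ξ c`. -/
theorem subst_jqModC_eq_jS (ξ : Rˣ) (c : ℕ) [NeZero c] :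
    Fermat.Agent.S28.subst ξ c (jqModC R) = jS R ξ c := by
  rw [Fermat.Agent.S28.subst_apply, jS, expand_eq_qExpand]
  congr 1

end Conjugates

end Fermat.Agent.Gateway.GoodRed.ConjFamily
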