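import Fermat.Agent.S28.Tower.Defs

/-!
helper48 (P-GATEWAY (c), GoodRed, WP-GR11a): the composite-level lemma (gcd trick of
`S28/Tower/Composite.lean`, helper86) over an ARBITRARY field `k`, directly in the variable
`z = q^(1/e)`.

For distinct primes `p ≠ r` dividing `d` and `p * r ∣ e`, the series `j(z^(e d))` is the unique
common root of `Φ_p(X, j(z^(e d / p)))` and `Φ_r(X, j(z^(e d / r)))`; hence it lies in every
subfield of `k((z))` containing `j(z^(e d / p))` and `j(z^(e d / r))`.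
-/

set_option autoImplicit false
noncomputable section

namespace Fermat.Agent.Gateway.GoodRed.ConjFamily

open Fermat.Agent.S28.Tower ModularCurve Polynomial

variable {k : Type} [Field k]

/-- **Composite-level lemma** over an arbitrary field. -/
theorem jS_mem_of_two_primes {Φp Φr : ℤ[X][X]} {p r d e : ℕ} (hp : p.Prime) (hr : r.Prime)
    (hpr : p ≠ r) (hAp : IsModEq Φp p k) (hAr : IsModEq Φr r k)
    (ζp ζr : kˣ) (hζp : IsPrimitiveRoot ζp p) (hζr : IsPrimitiveRoot ζr r)
    (hpd : p ∣ d) (hrd : r ∣ d) (hd : d ≠ 0) (he : p * r ∣ e) (he0 : e ≠ 0)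
    (V : IntermediateField k (LaurentSeries k))
    (h1 : jS k 1 (e * (d / p)) ∈ V) (h2 : jS k 1 (e * (d / r)) ∈ V) : jS k 1 (e * d) ∈ V := by
  classical
  obtain ⟨d₁, rfl⟩ := hpd
  obtain ⟨d₂, hd₂⟩ := hrd
  obtain ⟨e', rfl⟩ := he
  have hp0 : p ≠ 0 := hp.ne_zero
  have hr0 : r ≠ 0 := hr.ne_zero
  have hd₁ : d₁ ≠ 0 := fun h => hd (by rw [h, mul_zero])
  have hd₂0 : d₂ ≠ 0 := fun h => hd (by rw [hd₂, h, mul_zero])
  have he'0 : e' ≠ 0 := fun h => he0 (by rw [h, mul_zero])
  have e1 : p * d₁ / p = d₁ := Nat.mul_div_cancel_left d₁ hp.pos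
  have e2 : p * d₁ / r = d₂ := by rw [hd₂]; exact Nat.mul_div_cancel_left d₂ hr.pos
  rw [e1] at h1
  rw [e2] at h2
  set c := p * r * e' with hc
  set x : LaurentSeries k := jS k 1 (c * (p * d₁)) with hx
  -- exponents of the other roots
  set m := r * e' * d₁ with hm
  set m' := p * e' * d₂ with hm'
  have hm0 : m ≠ 0 := Nat.mul_ne_zero (Nat.mul_ne_zero hr0 he'0) hd₁
  have hm'0 : m' ≠ 0 := Nat.mul_ne_zero (Nat.mul_ne_zero hp0 he'0) hd₂0
  have hmm' : m ≠ m' := by
    intro h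
    -- r d₁ = p d₂ and p d₁ = r d₂ force p = r
    have h0 : r * d₁ = p * d₂ := by
      have : e' * (r * d₁) = e' * (p * d₂) := by
        calc e' * (r * d₁) = r * e' * d₁ := by ring
          _ = p * e' * d₂ := h
          _ = e' * (p * d₂) := by ring
      exact Nat.eq_of_mul_eq_mul_left (Nat.pos_of_ne_zero he'0) this
    have h3 : r * r * (d₁ * d₂) = p * p * (d₁ * d₂) := by
      calc r * r * (d₁ * d₂) = (r * d₁) * (r * d₂) := by ring
        _ = (p * d₂) * (p * d₁) := by rw [h0, ← hd₂]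
        _ = p * p * (d₁ * d₂) := by ring
    have h4 : r * r = p * p := Nat.eq_of_mul_eq_mul_right
      (Nat.pos_of_ne_zero (Nat.mul_ne_zero hd₁ hd₂0)) h3
    exact hpr (Nat.mul_self_inj.mp h4).symm
  -- the two factorisations
  have hA : polyAt Φp (jS k 1 (c * d₁)) =
      (X - C x) * ∏ i ∈ Finset.range p, (X - C (jS k (ζp ^ i) m)) := by
    have h := hAp.general hp0 hζp 1 hm0
    simp only [one_pow, mul_one] at h
    rw [show m * p = c * d₁ by rw [hm, hc]; ring,
      show m * p ^ 2 = c * (p * d₁) by rw [hm, hc]; ring] at h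
    exact h
  have hB : polyAt Φr (jS k 1 (c * d₂)) =
      (X - C x) * ∏ i ∈ Finset.range r, (X - C (jS k (ζr ^ i) m')) := by
    have h := hAr.general hr0 hζr 1 hm'0
    simp only [one_pow, mul_one] at h
    rw [show m' * r = c * d₂ by rw [hm', hc]; ring,
      show m' * r ^ 2 = c * (p * d₁) by rw [hm', hc, hd₂]; ring] at h
    exact h
  -- polynomials over `V`
  let a : V := ⟨jS k 1 (c * d₁), h1⟩
  let b : V := ⟨jS k 1 (c * d₂), h2⟩
  let φ : V →+* LaurentSeries k := algebraMap V (LaurentSeries k)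
  have hφinj : Function.Injective φ := (algebraMap V (LaurentSeries k)).injective
  have hφa : φ a = jS k 1 (c * d₁) := rfl
  have hφb : φ b = jS k 1 (c * d₂) := rfl
  have hAmap : (polyAt Φp a).map φ =
      (X - C x) * ∏ i ∈ Finset.range p, (X - C (jS k (ζp ^ i) m)) := by
    rw [polyAt_map, hφa, hA]
  have hBmap : (polyAt Φr b).map φ =
      (X - C x) * ∏ i ∈ Finset.range r, (X - C (jS k (ζr ^ i) m')) := by
    rw [polyAt_map, hφb, hB]
  set PiA : (LaurentSeries k)[X] := ∏ i ∈ Finset.range p, (X - C (jS k (ζp ^ i) m)) with hPiA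
  set PiB : (LaurentSeries k)[X] := ∏ i ∈ Finset.range r, (X - C (jS k (ζr ^ i) m')) with hPiB
  have hPiAmonic : PiA.Monic := monic_prod_of_monic _ _ fun i _ => monic_X_sub_C _
  have hPiBmonic : PiB.Monic := monic_prod_of_monic _ _ fun i _ => monic_X_sub_C _
  have hcop : IsCoprime PiA PiB := by
    refine IsCoprime.prod_left fun i _ => IsCoprime.prod_right fun j _ => ?_
    refine isCoprime_X_sub_C_of_isUnit_sub ?_
    rw [isUnit_iff_ne_zero, sub_ne_zero]
    exact jS_ne_of_ne_exp hm0 hm'0 _ _ hmm'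
  -- `x` is a root of `polyAt Φp a`
  have hAmonic : (polyAt Φp a).Monic :=
    monic_of_injective hφinj (by rw [hAmap]; exact (monic_X_sub_C x).mul hPiAmonic)
  have hev : ∀ Q : V[X], aeval x Q = eval x (Q.map φ) := by
    intro Q
    rw [aeval_def, eval_map]
  have hrootA : aeval x (polyAt Φp a) = 0 := by
    rw [hev, hAmap, eval_mul, eval_sub, eval_X, eval_C, sub_self, zero_mul]
  have hrootB : aeval x (polyAt Φr b) = 0 := by
    rw [hev, hBmap, eval_mul, eval_sub, eval_X, eval_C, sub_self, zero_mul]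
  have hint : IsIntegral V x := ⟨polyAt Φp a, hAmonic, by rwa [← aeval_def]⟩
  set mp := minpoly V x with hmp
  have hmpmonic : mp.Monic := minpoly.monic hint
  have hmpA : mp ∣ polyAt Φp a := minpoly.dvd V x hrootA
  have hmpB : mp ∣ polyAt Φr b := minpoly.dvd V x hrootB
  have hmproot : (mp.map φ).IsRoot x := by
    rw [IsRoot.def, ← hev, minpoly.aeval]
  obtain ⟨S, hS⟩ := dvd_iff_isRoot.mpr hmproot
  have hXne : (X - C x : (LaurentSeries k)[X]) ≠ 0 := X_sub_C_ne_zero x
  have hSA : S ∣ PiA := by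
    have h := Polynomial.map_dvd φ hmpA
    rw [hAmap, hS] at h
    exact (mul_dvd_mul_iff_left hXne).mp h
  have hSB : S ∣ PiB := by
    have h := Polynomial.map_dvd φ hmpB
    rw [hBmap, hS] at h
    exact (mul_dvd_mul_iff_left hXne).mp h
  have hSunit : IsUnit S := hcop.isUnit_of_dvd' hSA hSB
  have hSdeg : S.natDegree = 0 := natDegree_eq_zero_of_isUnit hSunit
  have hSne : S ≠ 0 := hSunit.ne_zero
  have hmpdeg : mp.natDegree = 1 := by
    rw [← natDegree_map_eq_of_injective hφinj, hS, natDegree_mul hXne hSne, natDegree_X_sub_C,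
      hSdeg]
  -- a monic polynomial of degree one with root `x` puts `x` in `V`
  have h5 := hmpmonic.eq_X_add_C hmpdeg
  have h6 : aeval x mp = 0 := minpoly.aeval V x
  rw [h5, map_add, aeval_X, aeval_C] at h6
  have h7 : x = -(algebraMap V (LaurentSeries k) (mp.coeff 0)) := eq_neg_of_add_eq_zero_left h6
  rw [h7]
  exact V.neg_mem (mp.coeff 0).2

/-- If a subfield `V` of `k((z))` contains `j(z^(N ℓ^b))` for all prime powers `ℓ^b ∣ N`, it
contains `j(z^(N d))` for every `d ∣ N`. -/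
theorem jS_mem_of_primePow_mem {N : ℕ} (hN : N ≠ 0) (Φ : ℕ → ℤ[X][X])
    (hΦ : ∀ p, p.Prime → p ∣ N → IsModEq (Φ p) p k)
    (hroots : ∀ p, p.Prime → p ∣ N → ∃ ζ : kˣ, IsPrimitiveRoot ζ p)
    (V : IntermediateField k (LaurentSeries k))
    (hV : ∀ q b : ℕ, q.Prime → q ^ b ∣ N → jS k 1 (N * q ^ b) ∈ V) :
    ∀ d : ℕ, d ∣ N → jS k 1 (N * d) ∈ V := by
  intro d
  induction d using Nat.strong_induction_on with
  | _ d ih =>
    intro hdN
    have hd0 : d ≠ 0 := fun h => hN (by rw [h, zero_dvd_iff] at hdN; exact hdN)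
    by_cases hd1 : d = 1
    · have := hV 2 0 Nat.prime_two (by simp)
      simpa [hd1] using this
    set p := d.minFac with hpdef
    have hp : p.Prime := Nat.minFac_prime hd1
    have hpd : p ∣ d := Nat.minFac_dvd d
    by_cases hpow : ∃ b, d = p ^ b
    · obtain ⟨b, hb⟩ := hpow
      rw [hb]
      exact hV p b hp (hb ▸ hdN)
    · -- another prime divides `d`
      have hex : ∃ r, r.Prime ∧ r ∣ d ∧ r ≠ p := by
        by_contra hcon
        push Not at hcon
        exact hpow ⟨_, Nat.eq_prime_pow_of_unique_prime_dvd hd0 (fun {q} hq hqd => hcon q hq hqd)⟩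
      obtain ⟨r, hr, hrd, hrp⟩ := hex
      obtain ⟨ζp, hζp⟩ := hroots p hp (hpd.trans hdN)
      obtain ⟨ζr, hζr⟩ := hroots r hr (hrd.trans hdN)
      have h1 : jS k 1 (N * (d / p)) ∈ V :=
        ih (d / p) (Nat.div_lt_self (Nat.pos_of_ne_zero hd0) hp.one_lt)
          ((Nat.div_dvd_of_dvd hpd).trans hdN)
      have h2 : jS k 1 (N * (d / r)) ∈ V :=
        ih (d / r) (Nat.div_lt_self (Nat.pos_of_ne_zero hd0) hr.one_lt)
          ((Nat.div_dvd_of_dvd hrd).trans hdN)
      have hprN : p * r ∣ N :=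
        (Nat.Coprime.mul_dvd_of_dvd_of_dvd ((Nat.coprime_primes hp hr).mpr (Ne.symm hrp))
          hpd hrd).trans hdN
      exact jS_mem_of_two_primes hp hr (Ne.symm hrp) (hΦ p hp (hpd.trans hdN))
        (hΦ r hr (hrd.trans hdN)) ζp ζr hζp hζr hpd hrd hd0 hprN hN V h1 h2

end Fermat.Agent.Gateway.GoodRed.ConjFamily
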