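import Fermat.Agent.Gateway.GoodRed.Inputs

/-!
# P-GATEWAY (c1) WP-GR11 (ConjFamily), part 0: the P-S28 inputs in EVERY characteristic

For an algebraically closed field `k` and a prime `p` with `(p : k) ≠ 0` (no hypothesis on the
characteristic of `k`):

* `crux_general` : `j(q^p) ∉ k(j(q))`;
* `hΦ_general` : the hypothesis package of the P-S28 tower (`Tower.exists_state`,
  `Tower.linearIndependent_expand_ev`, `Tower.hind_algClosed`) for the family `gΦ` of modular
  polynomials and every `N` with `(N : k) ≠ 0`;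
* `box_indep_general` : the box monomials are linearly independent over `k[j]`.
-/

set_option autoImplicit false

noncomputable section

namespace Fermat.Agent.Gateway.GoodRed.ConjFamily

open Polynomial ModularCurve IntermediateField Fermat.Agent.S28 Fermat.Agent.S28.Tower
open Fermat.Agent.Gateway.GoodRed

/-- in characteristic zero the unit series of a Hauptmodul is not `1`. -/
theorem map_u_ne_one_of_charZero {r : ℕ} [NeZero r] (H : Hauptmodul r) (k : Type) [Field k]
    [CharZero k] : H.u.map (Int.castRingHom k) ≠ 1 := by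
  intro h
  -- pick a prime `ℓ ≠ r`
  obtain ⟨ℓ, hℓ, hℓr⟩ : ∃ ℓ : ℕ, ℓ.Prime ∧ ℓ ≠ r := by
    by_cases h2 : r = 2
    · exact ⟨3, Nat.prime_three, by omega⟩
    · exact ⟨2, Nat.prime_two, fun h' => h2 h'.symm⟩
  apply H.u_ne_one ℓ hℓ hℓr
  have hu : H.u = 1 := by
    ext n
    have h1 := congrArg (PowerSeries.coeff n) h
    rw [PowerSeries.coeff_map, PowerSeries.coeff_one] at h1
    rw [PowerSeries.coeff_one]
    have hinj : Function.Injective (Int.castRingHom k) := RingHom.injective_int _
    apply hinj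
    rw [h1]
    split_ifs <;> simp
  rw [hu, map_one]

/-- the crux for a fixed auxiliary genus-zero level `r`, in characteristic zero. -/
theorem crux_charZero_aux {k : Type} [Field k] [CharZero k] [IsAlgClosed k] (p : ℕ) [NeZero p]
    (hp : p.Prime) (E : ModularEquation p) {r : ℕ} [NeZero r] (hr2 : 2 ≤ r) (H : Hauptmodul r) :
    qExpand k p (jqModC k) ∉ IntermediateField.adjoin k {jqModC k} := by
  intro hmem
  have hpk : (p : k) ≠ 0 := by exact_mod_cast hp.ne_zero
  have hrk : (r : k) ≠ 0 := by exact_mod_cast (NeZero.ne r)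
  obtain ⟨ζ, hζ⟩ := exists_primitiveRoot_unit (k := k) p hpk
  set D := HData.ofHauptmodul H k hrk with hD
  have hmain := D.qExpand_t_eq_pow hr2 p hp E ζ hζ hmem
  rw [hD, HData.ofHauptmodul_t] at hmain
  refine qExpand_ne_pow (H.u.map (Int.castRingHom k)) ?_ (map_u_ne_one_of_charZero H k) p
    hp.two_le hpk hmain
  rw [← PowerSeries.coeff_zero_eq_constantCoeff_apply, PowerSeries.coeff_map,
    PowerSeries.coeff_zero_eq_constantCoeff_apply, H.constantCoeff_u]
  simp

/-- **The crux (B) in every characteristic**: `j(q^p) ∉ k(j(q))` for `k` algebraically closed and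
`p` a prime which is nonzero in `k`. -/
theorem crux_general {k : Type} [Field k] [IsAlgClosed k] (p : ℕ) [NeZero p] (hp : p.Prime)
    (hpk : (p : k) ≠ 0) :
    qExpand k p (jqModC k) ∉ IntermediateField.adjoin k {jqModC k} := by
  obtain ⟨ℓ, hℓ⟩ := CharP.exists k
  rcases CharP.char_is_prime_or_zero k ℓ with hℓp | hℓ0
  · haveI : Fact ℓ.Prime := ⟨hℓp⟩
    have hpℓ : p ≠ ℓ := by
      rintro rfl
      exact hpk (CharP.cast_eq_zero k p)
    exact qExpand_jqModC_not_mem_adjoin ℓ p hp hpℓ (fun q _ hq => ModEq.modularEquation q hq)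
      hauptmodul2 hauptmodul3
  · subst hℓ0
    haveI : CharZero k := CharP.charP_to_charZero k
    exact crux_charZero_aux p hp (ModEq.modularEquation p hp) (r := 2) le_rfl hauptmodul2

/-- **The hypothesis package of the P-S28 tower in every characteristic.** -/
theorem hΦ_general {k : Type} [Field k] [IsAlgClosed k] {N : ℕ} (hNk : (N : k) ≠ 0) :
    ∀ p, p.Prime → p ∣ N → (gΦ p).Monic ∧ (gΦ p).natDegree = p + 1 ∧
      IsModEq (gΦ p) p k ∧ Irreducible (polyAt (gΦ p) (gen₀ k N)) := by
  have hN0 : N ≠ 0 := by rintro rfl; simp at hNk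
  intro p hp hpN
  haveI : NeZero p := ⟨hp.ne_zero⟩
  have hpk : ((p : ℕ) : k) ≠ 0 := natCast_ne_zero_of_dvd hNk hpN
  obtain ⟨z, hz⟩ := exists_primitiveRoot_unit (k := k) p hpk
  rw [gΦ_spec hp]
  exact ⟨(ModEq.modularEquation p hp).monic, (ModEq.modularEquation p hp).natDegree_eq,
    isModEq_of_modularEquation _ _, irreducible_polyAt_gen₀ _ z hz hN0 (crux_general p hp hpk)⟩

/-- the box monomials are independent over `k[j]`, for every algebraically closed `k` with
`(N : k) ≠ 0`. -/
theorem box_indep_general {k : Type} [Field k] [IsAlgClosed k] {N : ℕ} (hNk : (N : k) ≠ 0)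
    (c : box N → k[X])
    (h : ∑ μ : box N, aeval (jqModC k) (c μ) * ev k (μ : ℕ →₀ ℕ) = 0) : ∀ μ, c μ = 0 :=
  hind_algClosed gΦ hNk (hΦ_general hNk) c h

/-- primitive roots of unity for the prime divisors of `N`. -/
theorem exists_roots {k : Type} [Field k] [IsAlgClosed k] {N : ℕ} (hNk : (N : k) ≠ 0) :
    ∀ p, p.Prime → p ∣ N → ∃ ζ : kˣ, IsPrimitiveRoot ζ p := fun p _ hpN =>
  exists_primitiveRoot_unit (k := k) p (natCast_ne_zero_of_dvd hNk hpN)

end Fermat.Agent.Gateway.GoodRed.ConjFamily
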