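import Fermat.Agent.Gateway.GoodRed.ConjFamily.Field

/-!
# P-GATEWAY (c1) WP-GR11 (ConjFamily), part 2: `qExpand N : Fk ≃ Fz`
-/

set_option autoImplicit false
noncomputable section
namespace Fermat.Agent.Gateway.GoodRed.ConjFamily
open Polynomial ModularCurve IntermediateField Fermat.Agent.S28 Fermat.Agent.S28.Tower
open Fermat.Agent.Gateway.GoodRed

section QVar

variable (k : Type) [Field k] (N : ℕ) [NeZero N]

/-- the level-`N` function field in the variable `q` (Prelude). -/
abbrev Fk : IntermediateField k (LaurentSeries k) := modularFunctionFieldFullC k N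

/-- `j(q)` as an element of `Fk`. -/
def jFk : Fk k N := ⟨jqModC k, jqModC_mem_full k N⟩

/-- `j(q^d)`, `d ∣ N`, as an element of `Fk`. -/
def jdFk {d : ℕ} [NeZero d] (hd : d ∣ N) : Fk k N := ⟨qExpand k d (jqModC k), jqModCd_mem_full k N hd⟩

theorem qExpand_qExpand_jqModC (d : ℕ) [NeZero d] :
    qExpand k N (qExpand k d (jqModC k)) = jS k 1 (N * d) := by
  have : NeZero (N * d) := ⟨Nat.mul_ne_zero (NeZero.ne N) (NeZero.ne d)⟩
  rw [qExpand_qExpand, jS_eq_qExpand]

theorem map_Fk_eq :
    (Fk k N).map (qExpandAlgHomC k N) = (Fz k N).restrictScalars k := by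
  have hN : N ≠ 0 := NeZero.ne N
  rw [Fk, modularFunctionFieldFullC, IntermediateField.adjoin_map, Fz,
    IntermediateField.restrictScalars_adjoin]
  apply le_antisymm
  · rw [IntermediateField.adjoin_le_iff]
    rintro _ ⟨_, ⟨d, hd0, hd, rfl⟩, rfl⟩
    have := hd0
    apply IntermediateField.subset_adjoin
    right
    refine ⟨d, hd, ?_⟩
    rw [qExpandAlgHomC_apply, qExpand_qExpand_jqModC]
  · rw [IntermediateField.adjoin_le_iff]
    rintro x (hx | ⟨d, hd, rfl⟩)
    · -- `x ∈ E₀ = k(j(z^N))`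
      have hE : E₀ k N ≤ IntermediateField.adjoin k
          (⇑(qExpandAlgHomC k N) '' divisorExpansionsC k N) := by
        rw [E₀, IntermediateField.adjoin_le_iff]
        rintro _ rfl
        apply IntermediateField.subset_adjoin
        refine ⟨jqModC k, ⟨1, ⟨one_ne_zero⟩, one_dvd N, by rw [qExpand_one_apply]⟩, ?_⟩
        rw [qExpandAlgHomC_apply, jS_eq_qExpand]
      exact hE hx
    · have hd0 : d ≠ 0 := fun h => hN (by rw [h, zero_dvd_iff] at hd; exact hd)
      have : NeZero d := ⟨hd0⟩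
      apply IntermediateField.subset_adjoin
      refine ⟨qExpand k d (jqModC k), ⟨d, ⟨hd0⟩, hd, rfl⟩, ?_⟩
      rw [qExpandAlgHomC_apply, qExpand_qExpand_jqModC]

/-- `qExpand N` as a ring hom `Fk → Fz`. -/
def θ₀ : Fk k N →+* Fz k N :=
  ((qExpand k N).comp (algebraMap (Fk k N) (LaurentSeries k))).codRestrict (Fz k N).toSubring
    (fun x => by
      have h : qExpandAlgHomC k N (x : LaurentSeries k) ∈ (Fk k N).map (qExpandAlgHomC k N) :=
        ⟨x, x.2, rfl⟩
      rw [map_Fk_eq] at h
      exact h)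

theorem coe_θ₀ (x : Fk k N) : ((θ₀ k N x : Fz k N) : LaurentSeries k) = qExpand k N x := rfl

theorem θ₀_bijective : Function.Bijective (θ₀ k N) := by
  constructor
  · intro x y h
    have h1 := congrArg (fun t : Fz k N => (t : LaurentSeries k)) h
    simp only [coe_θ₀] at h1
    exact Subtype.ext (qExpand_injective N h1)
  · intro y
    have h : (y : LaurentSeries k) ∈ (Fz k N).restrictScalars k := y.2
    rw [← map_Fk_eq] at h
    obtain ⟨x, hx, hxy⟩ := h
    exact ⟨⟨x, hx⟩, Subtype.ext hxy⟩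

/-- `qExpand N : Fk ≃ Fz`. -/
def θ : Fk k N ≃+* Fz k N := RingEquiv.ofBijective (θ₀ k N) (θ₀_bijective k N)

theorem coe_θ (x : Fk k N) : ((θ k N x : Fz k N) : LaurentSeries k) = qExpand k N x := rfl

end QVar

end Fermat.Agent.Gateway.GoodRed.ConjFamily
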