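import Fermat.Agent.Gateway.GoodRed.ConjFamily.Field
import Fermat.Agent.Gateway.GoodRed.ConjFamily.QVar

/-!
# P-GATEWAY (c1) WP-GR11 (ConjFamily), part 3: the cusp embeddings `Emb k N` and their
identification with the `E₀`-embeddings of `Fz`
-/

set_option autoImplicit false
noncomputable section
namespace Fermat.Agent.Gateway.GoodRed.ConjFamily
open Polynomial ModularCurve IntermediateField Fermat.Agent.S28 Fermat.Agent.S28.Tower
open Fermat.Agent.Gateway.GoodRed

section Emb

variable (k : Type) [Field k] (N : ℕ) [NeZero N]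

/-- a cusp embedding: a ring hom `Fk → k((z))` which is the identity on constants and sends
`j(q)` to `j(z^N)`. -/
def IsEmb (τ : Fk k N →+* LaurentSeries k) : Prop :=
  (∀ c : k, τ (algebraMap k (Fk k N) c) = HahnSeries.C c) ∧
    τ (jFk k N) = qExpand k N (jqModC k)

/-- the type of cusp embeddings. -/
def Emb : Type := {τ : Fk k N →+* LaurentSeries k // IsEmb k N τ}

variable {k N}

theorem θ_algebraMap (c : k) :
    θ k N (algebraMap k (Fk k N) c) = algebraMap k (Fz k N) c := by
  apply Subtype.ext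
  rw [coe_θ]
  show qExpand k N (algebraMap k (LaurentSeries k) c) = algebraMap k (LaurentSeries k) c
  rw [algebraMap_laurentSeries_eq_single]
  exact qExpand_C N c

theorem θ_jFk : θ k N (jFk k N) = algebraMap (E₀ k N) (Fz k N) (gen₀ k N) := by
  apply Subtype.ext
  rw [coe_θ]
  show qExpand k N (jqModC k) = jS k 1 N
  rw [jS_eq_qExpand]

/-- the `k`-algebra hom `E₀ → k((z))` induced by a cusp embedding. -/
def embBase (τ : Fk k N →+* LaurentSeries k) (hτ : IsEmb k N τ) :
    E₀ k N →ₐ[k] LaurentSeries k where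
  toRingHom := (τ.comp (θ k N).symm.toRingHom).comp (algebraMap (E₀ k N) (Fz k N))
  commutes' c := by
    show τ ((θ k N).symm (algebraMap (E₀ k N) (Fz k N) (algebraMap k (E₀ k N) c))) = _
    rw [← IsScalarTower.algebraMap_apply, ← θ_algebraMap, RingEquiv.symm_apply_apply, hτ.1,
      algebraMap_laurentSeries_eq_single]
    rfl

theorem embBase_eq (τ : Fk k N →+* LaurentSeries k) (hτ : IsEmb k N τ) :
    embBase τ hτ = (E₀ k N).val := by
  apply IntermediateField.adjoin_algHom_ext
  rintro x rfl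
  show τ ((θ k N).symm (algebraMap (E₀ k N) (Fz k N) (gen₀ k N))) = jS k 1 N
  rw [← θ_jFk, RingEquiv.symm_apply_apply, hτ.2, jS_eq_qExpand]

/-- a cusp embedding as an `E₀`-algebra hom `Fz → k((z))`. -/
def embToAlgHom (τ : Fk k N →+* LaurentSeries k) (hτ : IsEmb k N τ) :
    Fz k N →ₐ[E₀ k N] LaurentSeries k where
  toRingHom := τ.comp (θ k N).symm.toRingHom
  commutes' e := by
    have := DFunLike.congr_fun (embBase_eq τ hτ) e
    exact this

theorem embToAlgHom_θ (τ : Fk k N →+* LaurentSeries k) (hτ : IsEmb k N τ) (x : Fk k N) :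
    embToAlgHom τ hτ (θ k N x) = τ x := by
  show τ ((θ k N).symm (θ k N x)) = τ x
  rw [RingEquiv.symm_apply_apply]

/-- an `E₀`-algebra hom `Fz → k((z))` gives a cusp embedding. -/
theorem isEmb_of_algHom (τ' : Fz k N →ₐ[E₀ k N] LaurentSeries k) :
    IsEmb k N (τ'.toRingHom.comp (θ k N).toRingHom) := by
  constructor
  · intro c
    show τ' (θ k N (algebraMap k (Fk k N) c)) = _
    rw [θ_algebraMap, IsScalarTower.algebraMap_apply k (E₀ k N) (Fz k N), τ'.commutes,
      ← IsScalarTower.algebraMap_apply, algebraMap_laurentSeries_eq_single]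
    rfl
  · show τ' (θ k N (jFk k N)) = _
    rw [θ_jFk, τ'.commutes, algebraMap_gen₀, jS_eq_qExpand]

/-- **the cusp embeddings are the `E₀`-embeddings of `Fz`.** -/
def embEquiv : Emb k N ≃ (Fz k N →ₐ[E₀ k N] LaurentSeries k) where
  toFun τ := embToAlgHom τ.1 τ.2
  invFun τ' := ⟨τ'.toRingHom.comp (θ k N).toRingHom, isEmb_of_algHom τ'⟩
  left_inv τ := by
    apply Subtype.ext
    refine RingHom.ext fun x => ?_
    exact embToAlgHom_θ τ.1 τ.2 x
  right_inv τ' := by
    refine AlgHom.ext fun y => ?_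
    show τ' (θ k N ((θ k N).symm y)) = τ' y
    rw [RingEquiv.apply_symm_apply]

end Emb

end Fermat.Agent.Gateway.GoodRed.ConjFamily
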