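import Fermat.Agent.Gateway.GoodRed.ConjFamily.Field
import Fermat.Agent.Gateway.GoodRed.ConjFamily.QVar
import Fermat.Agent.Gateway.GoodRed.ConjFamily.EmbDefs

/-!
# P-GATEWAY (c1) WP-GR11 (ConjFamily), part 4: (CF1) counting and (CF3) the twist action
-/

set_option autoImplicit false
noncomputable section
namespace Fermat.Agent.Gateway.GoodRed.ConjFamily
open Polynomial ModularCurve IntermediateField Fermat.Agent.S28 Fermat.Agent.S28.Tower
open Fermat.Agent.Gateway.GoodRed

section Family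

variable {k : Type} [Field k] {N : ℕ} [NeZero N]

/-- the expansion at the cusp `∞`: `f(q) ↦ f(z^N)`. -/
def embInfty : Emb k N :=
  ⟨(qExpand k N).comp (algebraMap (Fk k N) (LaurentSeries k)), by
    constructor
    · intro c
      show qExpand k N (algebraMap k (LaurentSeries k) c) = _
      rw [algebraMap_laurentSeries_eq_single]
      exact qExpand_C N c
    · rfl⟩

theorem embInfty_apply (f : Fk k N) : (embInfty (k := k) (N := N)).1 f = qExpand k N f := rfl

/-- twisting a cusp embedding by an `N`-th root of unity. -/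
def twistEmb (ζ : kˣ) (hζ : ζ ^ N = 1) (τ : Emb k N) : Emb k N :=
  ⟨(Fermat.Agent.S28.twist ζ).comp τ.1, by
    constructor
    · intro c
      show Fermat.Agent.S28.twist ζ (τ.1 (algebraMap k (Fk k N) c)) = _
      rw [τ.2.1, Fermat.Agent.S28.twist_C]
    · show Fermat.Agent.S28.twist ζ (τ.1 (jFk k N)) = _
      rw [τ.2.2, twist_qExpand_of_pow_eq_one ζ N hζ]⟩

theorem twistEmb_apply (ζ : kˣ) (hζ : ζ ^ N = 1) (τ : Emb k N) (f : Fk k N) :
    (twistEmb ζ hζ τ).1 f = Fermat.Agent.S28.twist ζ (τ.1 f) := rfl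

theorem twistEmb_twistEmb (ζ ζ' : kˣ) (hζ : ζ ^ N = 1) (hζ' : ζ' ^ N = 1) (τ : Emb k N) :
    twistEmb ζ hζ (twistEmb ζ' hζ' τ) = twistEmb (ζ * ζ') (by rw [mul_pow, hζ, hζ', one_mul]) τ := by
  apply Subtype.ext
  refine RingHom.ext fun f => ?_
  rw [twistEmb_apply, twistEmb_apply, twistEmb_apply, Fermat.Agent.S28.twist_twist]

theorem twistEmb_one (τ : Emb k N) : twistEmb (1 : kˣ) (one_pow N) τ = τ := by
  apply Subtype.ext
  refine RingHom.ext fun f => ?_
  rw [twistEmb_apply, Fermat.Agent.S28.twist_one]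

/-- **(CF3)** the permutation of the cusp embeddings given by `z ↦ ζ z`. -/
def rot (ζ : kˣ) (hζ : ζ ^ N = 1) : Equiv.Perm (Emb k N) where
  toFun := twistEmb ζ hζ
  invFun := twistEmb ζ⁻¹ (by rw [inv_pow, hζ, inv_one])
  left_inv τ := by
    rw [twistEmb_twistEmb]
    simp only [inv_mul_cancel]
    exact twistEmb_one τ
  right_inv τ := by
    rw [twistEmb_twistEmb]
    simp only [mul_inv_cancel]
    exact twistEmb_one τ

theorem rot_apply (ζ : kˣ) (hζ : ζ ^ N = 1) (τ : Emb k N) (f : Fk k N) :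
    (rot ζ hζ τ).1 f = Fermat.Agent.S28.twist ζ (τ.1 f) := rfl

theorem emb_val_injective : Function.Injective (fun τ : Emb k N => τ.1) := Subtype.val_injective

theorem emb_algebraMap (τ : Emb k N) (c : k) :
    τ.1 (algebraMap k (Fk k N) c) = HahnSeries.C c := τ.2.1 c

theorem emb_jFk (τ : Emb k N) : τ.1 (jFk k N) = qExpand k N (jqModC k) := τ.2.2

theorem emb_injective (τ : Emb k N) : Function.Injective τ.1 := τ.1.injective

variable [IsAlgClosed k]

/-- **(CF1)** the number of cusp embeddings is `[Fk : k(j)] = card (box N)`. -/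
theorem card_emb (hNk : (N : k) ≠ 0) :
    Nat.card (Emb k N) = (box N).card := by
  rw [Nat.card_congr embEquiv]
  exact (card_algHom_Fz hNk).1

theorem finite_emb (hNk : (N : k) ≠ 0) : Finite (Emb k N) := by
  apply Nat.finite_of_card_ne_zero
  rw [card_emb hNk]
  exact Finset.card_ne_zero.mpr ⟨0, mem_box.mpr zero_le⟩

end Family

end Fermat.Agent.Gateway.GoodRed.ConjFamily
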