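import Fermat.Agent.Gateway.GoodRed.ConjFamily.Crux
import Fermat.Agent.Gateway.GoodRed.ConjFamily.Composite

/-!
# P-GATEWAY (c1) WP-GR11 (ConjFamily), part 1: the level-`N` function field in the variable
`z = q^(1/N)` as the image of the P-S28 tower

`k` algebraically closed, `(N : k) ≠ 0`. `E₀ k N = k(j(z^N))`, `Fz k N = E₀(j(z^(N d)) : d ∣ N)`.
-/

set_option autoImplicit false

noncomputable section

namespace Fermat.Agent.Gateway.GoodRed.ConjFamily

open Polynomial ModularCurve IntermediateField Fermat.Agent.S28 Fermat.Agent.S28.Tower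
open Fermat.Agent.Gateway.GoodRed

section Defs

variable (k : Type) [Field k] (N : ℕ)

/-- the generators `j(z^(N d))`, `d ∣ N`. -/
def zGens : Set (LaurentSeries k) := {x | ∃ d, d ∣ N ∧ x = jS k 1 (N * d)}

/-- the level-`N` function field in the variable `z = q^(1/N)`, over `E₀ = k(j(z^N))`. -/
def Fz : IntermediateField (E₀ k N) (LaurentSeries k) :=
  IntermediateField.adjoin (E₀ k N) (zGens k N)

variable {k N}

theorem jS_mem_Fz {d : ℕ} (hd : d ∣ N) : jS k 1 (N * d) ∈ Fz k N :=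
  IntermediateField.subset_adjoin _ _ ⟨d, hd, rfl⟩

theorem expand_ev_mem_Fz (hN : N ≠ 0) {μ : ℕ →₀ ℕ} (hμ : μ ∈ box N) :
    expand k N (ev k μ) ∈ Fz k N := by
  rw [ev, Finsupp.prod, map_prod]
  refine prod_mem fun d hd => ?_
  rw [map_pow]
  refine pow_mem ?_ _
  obtain ⟨hd0, hdN⟩ := dvd_of_mem_support_of_mem_box hN hμ hd
  rw [expand_jS hN hd0]
  exact jS_mem_Fz hdN

end Defs

section Bound

theorem one_le_stepBound_apply {q a b : ℕ} (hq : q.Prime) (hb : 1 ≤ b) (hba : b ≤ a) :
    1 ≤ stepBound q a (q ^ b) := by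
  rw [stepBound, Finsupp.finsetSum_apply]
  have hmem : b ∈ Finset.Icc 1 a := Finset.mem_Icc.mpr ⟨hb, hba⟩
  refine le_trans ?_ (Finset.single_le_sum (f := fun c => (Finsupp.single (q ^ c)
    (if c = 1 then q else q - 1)) (q ^ b)) (fun _ _ => Nat.zero_le _) hmem)
  simp only [Finsupp.single_eq_same]
  split_ifs
  · exact hq.one_lt.le
  · have := hq.two_le
    omega

theorem one_le_bound_apply {N q b : ℕ} (hN : N ≠ 0) (hq : q.Prime) (hb : 1 ≤ b)
    (h : q ^ b ∣ N) : 1 ≤ bound N (q ^ b) := by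
  rw [bound, Finsupp.finsetSum_apply]
  have hqN : q ∣ N := (dvd_pow_self q (by omega)).trans h
  have hmem : q ∈ N.primeFactors := Nat.mem_primeFactors.mpr ⟨hq, hqN, hN⟩
  refine le_trans ?_ (Finset.single_le_sum (f := fun p => (stepBound p (N.factorization p))
    (q ^ b)) (fun _ _ => Nat.zero_le _) hmem)
  exact one_le_stepBound_apply hq hb ((hq.pow_dvd_iff_le_factorization hN).mp h)

theorem single_mem_box {N q b : ℕ} (hN : N ≠ 0) (hq : q.Prime) (hb : 1 ≤ b) (h : q ^ b ∣ N) :
    Finsupp.single (q ^ b) 1 ∈ box N := by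
  rw [mem_box]
  intro d
  by_cases hd : d = q ^ b
  · subst hd
    rw [Finsupp.single_eq_same]
    exact one_le_bound_apply hN hq hb h
  · rw [Finsupp.single_eq_of_ne hd]
    exact Nat.zero_le _

end Bound

section Tower

variable {k : Type} [Field k] {N : ℕ}

/-- the composite-level statement (WP-GR11a) as a hypothesis. -/
def CompositeHyp (k : Type) [Field k] (N : ℕ) : Prop :=
  ∀ V : IntermediateField k (LaurentSeries k),
    (∀ q b : ℕ, q.Prime → q ^ b ∣ N → jS k 1 (N * q ^ b) ∈ V) → ∀ d, d ∣ N → jS k 1 (N * d) ∈ V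

theorem fieldRange_le_Fz (hN : N ≠ 0) (st : TowerState (E₀ k N) (LaurentSeries k))
    (hM : HasMonomials st (bound N)) : st.fwd.fieldRange ≤ Fz k N := by
  obtain ⟨mon, -, hrange, hmon⟩ := hM
  rintro x ⟨e, rfl⟩
  have he : e = ∑ i, st.basis.repr e i • st.basis i := (st.basis.sum_repr e).symm
  rw [he]
  show st.fwd (∑ i, st.basis.repr e i • st.basis i) ∈ Fz k N
  rw [map_sum]
  refine sum_mem fun i _ => ?_
  rw [map_smul, hmon]
  refine (Fz k N).smul_mem ?_
  refine expand_ev_mem_Fz hN ?_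
  rw [mem_box]
  have : mon i ∈ Set.Iic (bound N) := hrange ▸ Set.mem_range_self i
  exact this

theorem Fz_le_fieldRange (hN : N ≠ 0) (hcomp : CompositeHyp k N)
    (st : TowerState (E₀ k N) (LaurentSeries k))
    (hM : HasMonomials st (bound N)) : Fz k N ≤ st.fwd.fieldRange := by
  obtain ⟨mon, -, hrange, hmon⟩ := hM
  rw [Fz, IntermediateField.adjoin_le_iff]
  rintro x ⟨d, hd, rfl⟩
  have key := hcomp (st.fwd.fieldRange.restrictScalars k) ?_ d hd
  · exact key
  intro q b hq hqb
  rcases Nat.eq_zero_or_pos b with rfl | hb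
  · rw [pow_zero, mul_one]
    show jS k 1 N ∈ st.fwd.fieldRange
    have : jS k 1 N = algebraMap (E₀ k N) (LaurentSeries k) (gen₀ k N) := rfl
    rw [this]
    exact st.fwd.fieldRange.algebraMap_mem _
  · have hμ : Finsupp.single (q ^ b) 1 ∈ Set.range mon := by
      rw [hrange]
      exact mem_box.mp (single_mem_box hN hq hb hqb)
    obtain ⟨i, hi⟩ := hμ
    show jS k 1 (N * q ^ b) ∈ st.fwd.fieldRange
    refine ⟨st.basis i, ?_⟩
    show st.fwd (st.basis i) = _
    rw [hmon, hi, ev_single, pow_one, expand_jS hN (pow_ne_zero b hq.ne_zero)]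

theorem fieldRange_eq_Fz (hN : N ≠ 0) (hcomp : CompositeHyp k N)
    (st : TowerState (E₀ k N) (LaurentSeries k))
    (hM : HasMonomials st (bound N)) : st.fwd.fieldRange = Fz k N :=
  le_antisymm (fieldRange_le_Fz hN st hM) (Fz_le_fieldRange hN hcomp st hM)

/-- the tower field is `Fz`. -/
def towerEquiv (hN : N ≠ 0) (hcomp : CompositeHyp k N)
    (st : TowerState (E₀ k N) (LaurentSeries k)) (hM : HasMonomials st (bound N)) :
    st.E ≃ₐ[E₀ k N] Fz k N :=
  (AlgEquiv.ofInjectiveField st.fwd).trans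
    (IntermediateField.equivOfEq (fieldRange_eq_Fz hN hcomp st hM))

theorem coe_towerEquiv (hN : N ≠ 0) (hcomp : CompositeHyp k N)
    (st : TowerState (E₀ k N) (LaurentSeries k)) (hM : HasMonomials st (bound N)) (e : st.E) :
    ((towerEquiv hN hcomp st hM e : Fz k N) : LaurentSeries k) = st.fwd e := rfl

theorem card_ι_eq (st : TowerState (E₀ k N) (LaurentSeries k)) (hM : HasMonomials st (bound N)) :
    Fintype.card st.ι = (box N).card := by
  obtain ⟨mon, hinj, hrange, -⟩ := hM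
  have hmem : ∀ i, mon i ∈ box N := fun i => by
    rw [mem_box]
    have : mon i ∈ Set.Iic (bound N) := hrange ▸ Set.mem_range_self i
    exact this
  let f : st.ι → box N := fun i => ⟨mon i, hmem i⟩
  have hf : Function.Bijective f := by
    constructor
    · intro a b hab
      exact hinj (Subtype.ext_iff.mp hab)
    · rintro ⟨μ, hμ⟩
      have : μ ∈ Set.range mon := by rw [hrange]; exact mem_box.mp hμ
      obtain ⟨i, rfl⟩ := this
      exact ⟨i, rfl⟩
  rw [Fintype.card_of_bijective hf, Fintype.card_coe]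

theorem finrank_Fz_of_tower (hN : N ≠ 0) (hcomp : CompositeHyp k N)
    (st : TowerState (E₀ k N) (LaurentSeries k)) (hM : HasMonomials st (bound N)) :
    Module.finrank (E₀ k N) (Fz k N) = (box N).card := by
  rw [← (towerEquiv hN hcomp st hM).toLinearEquiv.finrank_eq,
    Module.finrank_eq_card_basis st.basis, card_ι_eq st hM]

theorem finite_Fz_of_tower (hN : N ≠ 0) (hcomp : CompositeHyp k N)
    (st : TowerState (E₀ k N) (LaurentSeries k)) (hM : HasMonomials st (bound N)) :
    FiniteDimensional (E₀ k N) (Fz k N) :=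
  Module.Finite.equiv (towerEquiv hN hcomp st hM).toLinearEquiv

/-- every `E₀`-embedding of `Fz` into the algebraic closure of `k((z))` lands in `k((z))`. -/
theorem landsIn_Fz_of_tower (hN : N ≠ 0) (hcomp : CompositeHyp k N)
    (st : TowerState (E₀ k N) (LaurentSeries k)) (hM : HasMonomials st (bound N))
    (hL : LandsIn st 1)
    (ψ : Fz k N →ₐ[E₀ k N] AlgebraicClosure (LaurentSeries k)) (x : Fz k N) :
    ∃ f : LaurentSeries k, ψ x = algebraMap _ _ f := by
  obtain ⟨f, hf⟩ := hL (ψ.comp (towerEquiv hN hcomp st hM).toAlgHom)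
    ((towerEquiv hN hcomp st hM).symm x)
  refine ⟨expand k 1 f, ?_⟩
  rw [← hf]
  simp

end Tower

section Separable

variable {k : Type} [Field k] {N : ℕ}

/-- `Φ_p(X, j(η^p u^(m p)))` has `p + 1` distinct roots in `k((u))`. -/
theorem separable_polyAt {Φ : ℤ[X][X]} {p : ℕ} (hp : p.Prime) (hA : IsModEq Φ p k) {ζ : kˣ}
    (hζ : IsPrimitiveRoot ζ p) (η : kˣ) {m : ℕ} (hm : m ≠ 0) :
    (polyAt Φ (jS k (η ^ p) (m * p))).Separable := by
  rw [hA.general hp.ne_zero hζ η hm]
  have hm2 : m * p ^ 2 ≠ 0 := Nat.mul_ne_zero hm (pow_ne_zero 2 hp.ne_zero)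
  have hne : m * p ^ 2 ≠ m := by
    intro h
    have h2 : 2 ≤ p := hp.two_le
    have h4 : 4 ≤ p ^ 2 := by nlinarith
    have hm1 : 1 ≤ m := Nat.pos_of_ne_zero hm
    nlinarith
  refine Separable.mul separable_X_sub_C ?_ ?_
  · rw [separable_prod_X_sub_C_iff']
    intro i hi j hj hij
    have h1 := jS_injective_unit hm hij
    have h2 : ζ ^ i = ζ ^ j := mul_right_cancel h1
    exact hζ.pow_inj (Finset.mem_range.mp hi) (Finset.mem_range.mp hj) h2
  · refine IsCoprime.prod_right fun i _ => ?_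
    refine isCoprime_X_sub_C_of_isUnit_sub ?_
    rw [isUnit_iff_ne_zero, sub_ne_zero]
    exact jS_ne_of_ne_exp hm2 hm _ _ hne

/-- a root of `Φ_p(X, a)` is separable over any field containing `a = j(z^(m p))`. -/
theorem isSeparable_of_isRoot {Φ : ℤ[X][X]} {p : ℕ} (hp : p.Prime) (hA : IsModEq Φ p k) {ζ : kˣ}
    (hζ : IsPrimitiveRoot ζ p) {m : ℕ} (hm : m ≠ 0) {K : Type*} [Field K]
    [Algebra K (LaurentSeries k)] (a : K)
    (ha : algebraMap K (LaurentSeries k) a = jS k 1 (m * p)) {x : LaurentSeries k}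
    (hx : (polyAt Φ (jS k 1 (m * p))).IsRoot x) : IsSeparable K x := by
  have hsep : (polyAt Φ a).Separable := by
    rw [← separable_map (algebraMap K (LaurentSeries k)), polyAt_map, ha]
    have := separable_polyAt hp hA hζ 1 hm
    rwa [one_pow] at this
  have hroot : aeval x (polyAt Φ a) = 0 := by
    rw [aeval_def, ← eval_map, polyAt_map, ha]
    exact hx
  exact hsep.of_dvd (minpoly.dvd K x hroot)

/-- `j(z^(m p^2))` is a root of `Φ_p(X, j(z^(m p)))`. -/
theorem isRoot_jS {Φ : ℤ[X][X]} {p : ℕ} (hp : p ≠ 0) (hA : IsModEq Φ p k) {ζ : kˣ}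
    (hζ : IsPrimitiveRoot ζ p) {m : ℕ} (hm : m ≠ 0) :
    (polyAt Φ (jS k 1 (m * p))).IsRoot (jS k 1 (m * p ^ 2)) := by
  have h := hA.general hp hζ 1 hm
  rw [one_pow, one_pow] at h
  rw [h, IsRoot.def, eval_mul, eval_sub, eval_X, eval_C, sub_self, zero_mul]

/-- the generators `j(z^(N d))`, `d ∣ N`, are separable over `E₀ = k(j(z^N))`. -/
theorem isSeparable_jS (hN : N ≠ 0) (Φ : ℕ → ℤ[X][X])
    (hΦ : ∀ p, p.Prime → p ∣ N → IsModEq (Φ p) p k)
    (hroots : ∀ p, p.Prime → p ∣ N → ∃ ζ : kˣ, IsPrimitiveRoot ζ p) :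
    ∀ d, d ∣ N → IsSeparable (E₀ k N) (jS k 1 (N * d)) := by
  intro d
  induction d using Nat.strong_induction_on with
  | _ d ih =>
    intro hdN
    have hd0 : d ≠ 0 := fun h => hN (by rw [h, zero_dvd_iff] at hdN; exact hdN)
    rcases eq_or_ne d 1 with rfl | hd1
    · rw [mul_one]
      exact isSeparable_algebraMap (gen₀ k N)
    · have hr : (d.minFac).Prime := Nat.minFac_prime hd1
      obtain ⟨d', hd'⟩ := Nat.minFac_dvd d
      set r := d.minFac with hrdef
      have hr0 : r ≠ 0 := hr.ne_zero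
      have hd'0 : d' ≠ 0 := fun h => hd0 (by rw [hd', h, mul_zero])
      have hd'lt : d' < d := by
        rw [hd', mul_comm]
        exact lt_mul_of_one_lt_right (Nat.pos_of_ne_zero hd'0) hr.one_lt
      have hd'd : d' ∣ d := ⟨r, by rw [hd', mul_comm]⟩
      have hrN : r ∣ N := (Nat.minFac_dvd d).trans hdN
      obtain ⟨N', hN'⟩ := hrN
      have hN'0 : N' ≠ 0 := fun h => hN (by rw [hN', h, mul_zero])
      obtain ⟨ζ, hζ⟩ := hroots r hr ⟨N', hN'⟩
      have hA := hΦ r hr ⟨N', hN'⟩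
      have hsep' := ih d' hd'lt (hd'd.trans hdN)
      set x' := jS k 1 (N * d') with hx'
      haveI : Algebra.IsSeparable (E₀ k N) (E₀ k N)⟮x'⟯ :=
        (isSeparable_adjoin_simple_iff_isSeparable _ _).mpr hsep'
      set m := N' * d' with hm
      have hm0 : m ≠ 0 := Nat.mul_ne_zero hN'0 hd'0
      have e1 : m * r = N * d' := by rw [hm, hN']; ring
      have e2 : m * r ^ 2 = N * d := by rw [hm, hN', hd']; ring
      let a : (E₀ k N)⟮x'⟯ := ⟨x', mem_adjoin_simple_self _ _⟩
      have ha : algebraMap (E₀ k N)⟮x'⟯ (LaurentSeries k) a = jS k 1 (m * r) := by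
        rw [e1]; rfl
      have hroot := isRoot_jS hr0 hA hζ hm0
      rw [e2] at hroot
      have h1 : IsSeparable (E₀ k N)⟮x'⟯ (jS k 1 (N * d)) :=
        isSeparable_of_isRoot hr hA hζ hm0 a ha hroot
      exact IsSeparable.of_algebra_isSeparable_of_isSeparable (E₀ k N) h1

theorem isSeparable_Fz (hN : N ≠ 0) (Φ : ℕ → ℤ[X][X])
    (hΦ : ∀ p, p.Prime → p ∣ N → IsModEq (Φ p) p k)
    (hroots : ∀ p, p.Prime → p ∣ N → ∃ ζ : kˣ, IsPrimitiveRoot ζ p) :
    Algebra.IsSeparable (E₀ k N) (Fz k N) := by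
  rw [Fz, IntermediateField.isSeparable_adjoin_iff_isSeparable]
  rintro x ⟨d, hd, rfl⟩
  exact isSeparable_jS hN Φ hΦ hroots d hd

end Separable

section Count

variable {k : Type} [Field k] {N : ℕ}

/-- abstract descent: if every `K`-embedding of `E` into `Ω ⊇ M` lands in `M`, then composing with
`M → Ω` is a bijection on embeddings. -/
theorem comp_bijective_of_landsIn {K E M Ω : Type*} [Field K] [Field E] [Field M] [Field Ω]
    [Algebra K E] [Algebra K M] [Algebra K Ω] [Algebra M Ω] [IsScalarTower K M Ω]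
    (h : ∀ (ψ : E →ₐ[K] Ω) (x : E), ∃ f : M, ψ x = algebraMap M Ω f) :
    Function.Bijective (fun τ : E →ₐ[K] M => (IsScalarTower.toAlgHom K M Ω).comp τ) := by
  set ι := IsScalarTower.toAlgHom K M Ω with hι
  have hιinj : Function.Injective ι := (algebraMap M Ω).injective
  constructor
  · intro τ τ' hττ'
    ext x
    apply hιinj
    exact DFunLike.congr_fun hττ' x
  · intro ψ
    have hmem : ∀ x, ψ x ∈ ι.range := fun x => by
      obtain ⟨f, hf⟩ := h ψ x
      exact ⟨f, hf.symm⟩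
    refine ⟨(AlgEquiv.ofInjective ι hιinj).symm.toAlgHom.comp (ψ.codRestrict ι.range hmem), ?_⟩
    ext x
    simp only [AlgHom.comp_apply]
    have := (AlgEquiv.ofInjective ι hιinj).apply_symm_apply (ψ.codRestrict ι.range hmem x)
    have h2 := congrArg Subtype.val this
    rw [AlgEquiv.ofInjective_apply] at h2
    exact h2

variable [IsAlgClosed k]

/-- the composite-level statement holds (WP-GR11a, helper48's port of the gcd trick). -/
theorem compositeHyp (hNk : (N : k) ≠ 0) : CompositeHyp k N := by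
  have hN : N ≠ 0 := by rintro rfl; simp at hNk
  intro V hV
  exact jS_mem_of_primePow_mem hN gΦ (fun p hp hpN => (hΦ_general hNk p hp hpN).2.2.1)
    (exists_roots hNk) V hV

/-- **Counting**: the number of `E₀`-embeddings `Fz → k((z))` is `[Fz : E₀] = card (box N)`. -/
theorem card_algHom_Fz (hNk : (N : k) ≠ 0) :
    Nat.card (Fz k N →ₐ[E₀ k N] LaurentSeries k) = (box N).card ∧
      Module.finrank (E₀ k N) (Fz k N) = (box N).card ∧ FiniteDimensional (E₀ k N) (Fz k N) ∧
      Algebra.IsSeparable (E₀ k N) (Fz k N) := by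
  have hN : N ≠ 0 := by rintro rfl; simp at hNk
  have hcomp := compositeHyp hNk
  obtain ⟨st, hL, hM⟩ := exists_state gΦ hNk (hΦ_general hNk) N 1 (mul_one N).symm
    (Nat.coprime_one_right N)
  have hfin := finite_Fz_of_tower hN hcomp st hM
  have hsep : Algebra.IsSeparable (E₀ k N) (Fz k N) :=
    isSeparable_Fz hN gΦ (fun p hp hpN => (hΦ_general hNk p hp hpN).2.2.1) (exists_roots hNk)
  have hrank := finrank_Fz_of_tower hN hcomp st hM
  refine ⟨?_, hrank, hfin, hsep⟩
  have hbij := comp_bijective_of_landsIn (K := E₀ k N) (E := Fz k N) (M := LaurentSeries k)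
    (Ω := AlgebraicClosure (LaurentSeries k)) (landsIn_Fz_of_tower hN hcomp st hM hL)
  rw [Nat.card_eq_of_bijective _ hbij, ← hrank]
  exact AlgHom.natCard_of_splits (E₀ k N) (Fz k N) (AlgebraicClosure (LaurentSeries k))
    (fun _ => IsAlgClosed.splits _)

end Count

end Fermat.Agent.Gateway.GoodRed.ConjFamily
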