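import Fermat.Agent.Gateway.GoodRed.ConjFamily
import Fermat.Agent.Gateway.GoodRed.PolePlaces

/-!
# P-GATEWAY (c1) WP-GR11: the places of the level-`N` function field over `j = ∞`

`k : Type` algebraically closed, `(N : k) ≠ 0` (any characteristic),
`Fk k N = modularFunctionFieldFullC k N`. Instantiation of `PolePlaces.exists_polePlaces` with
the family `Emb k N` of all cusp embeddings: the places of `Fk k N / k` over `j = ∞` (the cusps)
are the orbits of the twist `z ↦ ζ z` on `Emb k N`, with ramification index the orbit size.
-/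

set_option autoImplicit false

noncomputable section

namespace Fermat.Agent.Gateway.GoodRed.ConjFamily

open AlgebraicCurve IntermediateField Function ModularCurve
open Fermat.Agent.S24 Fermat.Agent.S28 Fermat.Agent.Gateway.GoodRed
open Fermat.Agent.Gateway.GoodRed.PlacesAtInfinity

section Places

variable {k : Type} [Field k] {N : ℕ} [NeZero N]

theorem transcendental_jFk : Transcendental k (jFk k N) := by
  refine PlacesAtInfinity.transcendental_of_order_neg (embInfty (k := k) (N := N)).1
    (emb_algebraMap embInfty) (x := jFk k N) ?_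
  rw [emb_jFk, order_qExpand_jqModC]
  have : (0 : ℤ) < (N : ℤ) := by exact_mod_cast Nat.pos_of_ne_zero (NeZero.ne N)
  omega

variable [IsAlgClosed k]

/-- **the cusps of `Fk k N`**: the places over `j = ∞` are the twist orbits of the cusp
embeddings. -/
theorem exists_polePlaces_Fk (hNk : (N : k) ≠ 0) (ζ : kˣ) (hζ : IsPrimitiveRoot ζ N) :
    letI := fintypeEmb hNk
    letI : DecidableEq (Emb k N) := Classical.decEq _
    ∃ pl : Emb k N → Place k (Fk k N),
      IsPolePlaces (fun τ : Emb k N => τ.1) (rot ζ hζ.pow_eq_one) N (jFk k N) pl := by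
  letI := fintypeEmb hNk
  letI : DecidableEq (Emb k N) := Classical.decEq _
  haveI := finiteDimensional_Fk hNk
  obtain ⟨pl, hpl, -⟩ := exists_polePlaces (fun τ : Emb k N => τ.1) (rot ζ hζ.pow_eq_one)
    emb_algebraMap (fun τ f => rot_apply ζ hζ.pow_eq_one τ f) hζ emb_val_injective (jFk k N)
    (qExpand k N (jqModC k)) emb_jFk order_qExpand_jqModC (card_emb_fintype hNk).ge
  exact ⟨pl, hpl⟩

end Places

end Fermat.Agent.Gateway.GoodRed.ConjFamily
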