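import Fermat.Agent.Gateway.GoodRed.ConjFamily.Family
import Fermat.Agent.S28.Tower.BAdapter

/-!
# P-GATEWAY (c1) WP-GR11 (ConjFamily), part 5: (CF2) the values of the cusp embeddings on the
generators `j(q^d)`
-/

set_option autoImplicit false
noncomputable section
namespace Fermat.Agent.Gateway.GoodRed.ConjFamily
open Polynomial ModularCurve IntermediateField Fermat.Agent.S28 Fermat.Agent.S28.Tower
open Fermat.Agent.Gateway.GoodRed

section Values

variable {k : Type} [Field k] {N : ℕ} [NeZero N]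

theorem ne_zero_of_dvd_N {d : ℕ} (hd : d ∣ N) : d ≠ 0 := fun h =>
  NeZero.ne N (by rw [h, zero_dvd_iff] at hd; exact hd)

theorem jS_mem_Fk {d : ℕ} (hd : d ∣ N) : jS k 1 d ∈ Fk k N := by
  have : NeZero d := ⟨ne_zero_of_dvd_N hd⟩
  rw [jS_eq_qExpand]
  exact jqModCd_mem_full k N hd

/-- `j(q^d)`, `d ∣ N`, as an element of `Fk`. -/
def jdF (d : ℕ) (hd : d ∣ N) : Fk k N := ⟨jS k 1 d, jS_mem_Fk hd⟩

theorem coe_jdF (d : ℕ) (hd : d ∣ N) : ((jdF d hd : Fk k N) : LaurentSeries k) = jS k 1 d := rfl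

theorem jdF_one : jdF (k := k) 1 (one_dvd N) = jFk k N := by
  apply Subtype.ext
  rw [coe_jdF, jS_one_one]
  rfl

variable [IsAlgClosed k]

/-- **(CF2)** every cusp embedding sends `j(q^d)`, `d ∣ N`, to `j(ξ z^(s N / t))` with `s t = d`
and `ξ^t = 1`. -/
theorem emb_jdF (hNk : (N : k) ≠ 0) (τ : Emb k N) :
    ∀ d (hd : d ∣ N), ∃ (ξ : kˣ) (s t : ℕ), s * t = d ∧ ξ ^ t = 1 ∧
      τ.1 (jdF d hd) = jS k ξ (s * (N / t)) := by
  have hN : N ≠ 0 := NeZero.ne N
  intro d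
  induction d using Nat.strong_induction_on with
  | _ d ih =>
    intro hdN
    have hd0 : d ≠ 0 := ne_zero_of_dvd_N hdN
    rcases eq_or_ne d 1 with rfl | hd1
    · refine ⟨1, 1, 1, rfl, one_pow 1, ?_⟩
      rw [jdF_one, emb_jFk, Nat.div_one, one_mul, jS_eq_qExpand]
    · have hr : (d.minFac).Prime := Nat.minFac_prime hd1
      obtain ⟨d', hd'⟩ := Nat.minFac_dvd d
      set r := d.minFac with hrdef
      have hr0 : r ≠ 0 := hr.ne_zero
      have hd'0 : d' ≠ 0 := fun h => hd0 (by rw [hd', h, mul_zero])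
      have hd'lt : d' < d := by
        rw [hd', mul_comm]
        exact lt_mul_of_one_lt_right (Nat.pos_of_ne_zero hd'0) hr.one_lt
      have hd'd : d' ∣ d := ⟨r, by rw [hd', mul_comm]⟩
      have hd'N : d' ∣ N := hd'd.trans hdN
      have hrN : r ∣ N := (Nat.minFac_dvd d).trans hdN
      obtain ⟨ζ, hζ⟩ := exists_roots hNk r hr hrN
      have hA : IsModEq (gΦ r) r k := (hΦ_general hNk r hr hrN).2.2.1
      obtain ⟨ξ, s, t, hst, hξt, hτ⟩ := ih d' hd'lt hd'N
      obtain ⟨η, hη⟩ := exists_unit_pow_eq ξ hr.pos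
      -- the relation in `Fk`
      have hrel : Tower.Rel (gΦ r) (jdF d hdN) (jdF (k := k) d' hd'N) := by
        apply Rel.of_map_injective (algebraMap (Fk k N) (LaurentSeries k))
          (algebraMap (Fk k N) (LaurentSeries k)).injective
        show Tower.Rel (gΦ r) (jS k 1 d) (jS k 1 d')
        rw [hd', mul_comm r d']
        exact rel_fwd_K hA hr0 hζ hd'0
      have hrel' := hrel.map τ.1
      rw [hτ] at hrel'
      -- arithmetic
      obtain ⟨e, he⟩ := hdN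
      have hs0 : s ≠ 0 := fun h => hd'0 (by rw [← hst, h, zero_mul])
      have ht0 : t ≠ 0 := fun h => hd'0 (by rw [← hst, h, mul_zero])
      have he0 : e ≠ 0 := fun h => hN (by rw [he, h, mul_zero])
      have e1 : N / t = s * r * e := by
        apply Nat.div_eq_of_eq_mul_right (Nat.pos_of_ne_zero ht0)
        rw [he, hd', ← hst]; ring
      have e2 : N / (t * r) = s * e := by
        apply Nat.div_eq_of_eq_mul_right (Nat.pos_of_ne_zero (Nat.mul_ne_zero ht0 hr0))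
        rw [he, hd', ← hst]; ring
      set m := s * (s * e) with hm
      have hm0 : m ≠ 0 := Nat.mul_ne_zero hs0 (Nat.mul_ne_zero hs0 he0)
      have e3 : s * (N / t) = m * r := by rw [e1, hm]; ring
      unfold Tower.Rel at hrel'
      rw [e3, ← hη] at hrel'
      rcases eq_of_isRoot_polyAt hA hr0 hζ η hm0 (RingHom.id _) _ hrel' with h | ⟨i, -, h⟩
      · refine ⟨η ^ (r ^ 2), s * r, t, by rw [hd', ← hst]; ring, ?_, ?_⟩
        · rw [pow_two, pow_mul, hη, ← pow_mul, mul_comm, pow_mul, hξt, one_pow]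
        · rw [h, RingHom.id_apply, e1, hm]
          congr 1
          ring
      · refine ⟨ζ ^ i * η, s, t * r, by rw [hd', ← hst]; ring, ?_, ?_⟩
        · rw [mul_pow, ← pow_mul, mul_comm t r, ← mul_assoc, mul_comm i r, mul_assoc, pow_mul,
            hζ.pow_eq_one, one_pow, one_mul, pow_mul, hη, hξt]
        · rw [h, RingHom.id_apply, e2, hm]

/-- the Tower series `j(ξ z^c)` in the `Fermat.Agent.S28.subst` vocabulary. -/
theorem jS_eq_subst {R : Type*} [CommRing R] (ξ : Rˣ) (c : ℕ) [NeZero c] :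
    jS R ξ c = Fermat.Agent.S28.subst ξ c (jqModC R) := by
  rw [jS, expand_eq_qExpand, twist_eq_S28_twist, Fermat.Agent.S28.subst_apply]

/-- **(CF2)**, short form: `τ (j(q^d)) = j(ξ z^c)` with `ξ^N = 1`, `c ≠ 0`. -/
theorem emb_jdF' (hNk : (N : k) ≠ 0) (τ : Emb k N) (d : ℕ) (hd : d ∣ N) :
    ∃ (ξ : kˣ) (c : ℕ), ξ ^ N = 1 ∧ c ≠ 0 ∧ τ.1 (jdF d hd) = jS k ξ c := by
  obtain ⟨ξ, s, t, hst, hξt, hτ⟩ := emb_jdF hNk τ d hd
  have hd0 : d ≠ 0 := ne_zero_of_dvd_N hd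
  have hs0 : s ≠ 0 := fun h => hd0 (by rw [← hst, h, zero_mul])
  have ht0 : t ≠ 0 := fun h => hd0 (by rw [← hst, h, mul_zero])
  have htN : t ∣ N := (Dvd.intro_left s hst).trans hd
  obtain ⟨e, he⟩ := htN
  refine ⟨ξ, s * (N / t), ?_, ?_, hτ⟩
  · rw [he, pow_mul, hξt, one_pow]
  · refine Nat.mul_ne_zero hs0 ?_
    rw [he, Nat.mul_div_cancel_left e (Nat.pos_of_ne_zero ht0)]
    rintro rfl
    exact NeZero.ne N (by rw [he, mul_zero])

/-- **(CF2)** in the `qExpand` / `subst` vocabulary. -/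
theorem emb_qExpand_jqModC (hNk : (N : k) ≠ 0) (τ : Emb k N) (d : ℕ) [NeZero d]
    (hd : d ∣ N) :
    ∃ (ξ : kˣ) (c : ℕ) (_ : NeZero c), ξ ^ N = 1 ∧
      τ.1 ⟨qExpand k d (jqModC k), jqModCd_mem_full k N hd⟩ =
        Fermat.Agent.S28.subst ξ c (jqModC k) := by
  obtain ⟨ξ, c, hξ, hc, hτ⟩ := emb_jdF' hNk τ d hd
  haveI : NeZero c := ⟨hc⟩
  refine ⟨ξ, c, ⟨hc⟩, hξ, ?_⟩
  rw [← jS_eq_subst, ← hτ]
  congr 1
  apply Subtype.ext
  rw [coe_jdF, jS_eq_qExpand]

end Values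

end Fermat.Agent.Gateway.GoodRed.ConjFamily
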